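import Fermat.Agent.S59.H870.OrdMat
import Fermat.Agent.S59.H659.SOBridge
import Fermat.Prelude.Def_GaloisRep_LocalConditions

/-!
# S59, cell COND, `.ord` case (helper870): the ordinary condition, from lines to matrices

* `isOrdinaryAt_toAdic_iff` : the representation `toAdic r hr` is ordinary at `p` (Prelude) iff
  for every place `𝔓` over `p` the matrix representation `r` is conjugate to one in ordinary
  standard form at `𝔓`;
* `isOrdinaryAt_baseChangeAlong`, `isOrdinaryAt_of_isEquiv`.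
-/

set_option autoImplicit false
set_option linter.unusedSectionVars false
set_option linter.style.haveILetI false

namespace Fermat.Agent.S59.H870

open Fermat.Agent.S53 Fermat.Agent.S59.H659 Fermat.Agent.S56.H966 IsLocalRing Polynomial
open scoped TensorProduct

section Bridge

variable {A : Type} [CommRing A] [IsLocalRing A]

/-- The local part of the Prelude's `IsOrdinaryAt`, in terms of a basis. -/
theorem oLoc_iff_basis (ρ : GaloisRepAdic A) (𝔓 : ValuationSubring (AlgebraicClosure ℚ)) :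
    (∃ L : Submodule A ρ.V,
      (∃ b : Module.Basis (Fin 2) A ρ.V, L = Submodule.span A {b 0}) ∧
      (∀ σ ∈ 𝔓.decompositionSubgroup ℚ, ∀ v ∈ L, ρ.ρ σ v ∈ L) ∧
      (∀ σ ∈ 𝔓.inertiaSubgroupIn ℚ, ∀ v : ρ.V, ρ.ρ σ v - v ∈ L)) ↔
    ∃ b : Module.Basis (Fin 2) A ρ.V,
      (∀ σ ∈ 𝔓.decompositionSubgroup ℚ, LinearMap.toMatrix b b (ρ.ρ σ) 1 0 = 0) ∧
      (∀ σ ∈ 𝔓.inertiaSubgroupIn ℚ, LinearMap.toMatrix b b (ρ.ρ σ) 1 1 = 1) := by
  constructor
  · rintro ⟨L, ⟨b, rfl⟩, hD, hI⟩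
    refine ⟨b, fun σ hσ => ?_, fun σ hσ => ?_⟩
    · exact (map_mem_span_iff b (ρ.ρ σ)).mp (hD σ hσ)
    · have h1 : ∀ v, ρ.ρ σ v - (1 : A) • v ∈ Submodule.span A {b 0} := fun v => by
        rw [one_smul]; exact hI σ hσ v
      exact ((sub_smul_mem_span_iff b (ρ.ρ σ) 1).mp h1).2
  · rintro ⟨b, hD, hI⟩
    refine ⟨Submodule.span A {b 0}, ⟨b, rfl⟩, fun σ hσ => ?_, fun σ hσ v => ?_⟩
    · exact (map_mem_span_iff b (ρ.ρ σ)).mpr (hD σ hσ)
    · have h1 := (sub_smul_mem_span_iff b (ρ.ρ σ) 1).mpr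
        ⟨hD σ (mem_decomposition_of_mem_inertia hσ), hI σ hσ⟩ v
      rwa [one_smul] at h1

/-- **Ordinary representations in terms of matrices.** -/
theorem isOrdinaryAt_toAdic_iff (r : GQ →* M2 A) (hr : MatCont r) (p : ℕ) :
    (toAdic r hr).IsOrdinaryAt p ↔
      ∀ 𝔓 : ValuationSubring (AlgebraicClosure ℚ),
        𝔓.LiesOverPrime p → ∃ U : (M2 A)ˣ, IsOStd 𝔓 (cj U r) := by
  have key : ∀ (b : Module.Basis (Fin 2) A (Fin 2 → A)) (U : (M2 A)ˣ),
      (∀ v : Fin 2 → A, (U : M2 A).mulVec v = b.equivFun v) →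
      ∀ σ, LinearMap.toMatrix b b ((toAdic r hr).ρ σ) = cj U r σ := fun b U hU σ =>
    toMatrix_matEnd b U hU (r σ)
  unfold GaloisRepAdic.IsOrdinaryAt
  refine forall_congr' fun 𝔓 => forall_congr' fun h𝔓 => ?_
  rw [oLoc_iff_basis]
  constructor
  · rintro ⟨b, hD, hI⟩
    have hU : ∀ v : Fin 2 → A, ((equivUnit b.equivFun : (M2 A)ˣ) : M2 A).mulVec v =
        b.equivFun v := fun v => equivUnit_mulVec b.equivFun v
    refine ⟨equivUnit b.equivFun, ⟨fun σ hσ => ?_, fun σ hσ => ?_⟩⟩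
    · rw [← key b _ hU σ]
      exact hD σ hσ
    · rw [← key b _ hU σ]
      exact hI σ hσ
  · rintro ⟨U, hU⟩
    let b : Module.Basis (Fin 2) A (Fin 2 → A) := Module.Basis.ofEquivFun (unitEquiv U)
    have hb : ∀ v : Fin 2 → A, (U : M2 A).mulVec v = b.equivFun v := fun v => by
      rw [Module.Basis.equivFun_ofEquivFun]
      rfl
    refine ⟨b, fun σ hσ => ?_, fun σ hσ => ?_⟩
    · have h1 := hU.dec σ hσ
      rw [← key b U hb σ] at h1
      exact h1
    · have h1 := hU.inert σ hσ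
      rw [← key b U hb σ] at h1
      exact h1

end Bridge

section BC

variable {A B : Type} [CommRing A] [IsLocalRing A] [CommRing B] [IsLocalRing B]

/-- Ordinarity is stable under base change along local homomorphisms. -/
theorem isOrdinaryAt_baseChangeAlong (φ : A →+* B) (hφ : IsLocalHom φ)
    {ρ : GaloisRepAdic A} {p : ℕ} (h : ρ.IsOrdinaryAt p) :
    (ρ.baseChangeAlong φ hφ).IsOrdinaryAt p := by
  letI : Algebra A B := φ.toAlgebra
  intro P hP
  obtain ⟨L, ⟨b, rfl⟩, hD, hI⟩ := h P hP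
  refine ⟨(Submodule.span B {(1 : B) ⊗ₜ[A] b 0} : Submodule B (B ⊗[A] ρ.V)),
    ⟨b.baseChange B, span_eq_span_baseChange φ b⟩, ?_, ?_⟩
  · intro σ hσ v hv
    exact baseChange_mem_span_of_mem φ (b 0) (ρ.ρ σ) (hD σ hσ) v hv
  · intro σ hσ w
    have := baseChange_sub_smul_mem φ (b 0) (ρ.ρ σ) 1
      (fun v => by rw [one_smul]; exact hI σ hσ v) w
    rw [map_one, one_smul] at this
    exact this

variable {ρ₁ ρ₂ : GaloisRepAdic A}

/-- Ordinarity is invariant under equivalence. -/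
theorem isOrdinaryAt_of_isEquiv (he : ρ₁.IsEquiv ρ₂) {p : ℕ}
    (h : ρ₁.IsOrdinaryAt p) : ρ₂.IsOrdinaryAt p := by
  obtain ⟨e⟩ := he
  intro P hP
  obtain ⟨L, ⟨b, rfl⟩, hD, hI⟩ := h P hP
  have hmem : ∀ {u : ρ₁.V}, u ∈ Submodule.span A {b 0} →
      e.toLinearEquiv u ∈ Submodule.span A {e.toLinearEquiv (b 0)} := by
    intro u hu
    obtain ⟨a, rfl⟩ := Submodule.mem_span_singleton.mp hu
    rw [map_smul]
    exact Submodule.smul_mem _ _ (Submodule.mem_span_singleton_self _)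
  have hsub : ∀ (σ : AlgebraicClosure ℚ ≃ₐ[ℚ] AlgebraicClosure ℚ) (z : A),
      (∀ v, ρ₁.ρ σ v - z • v ∈ Submodule.span A {b 0}) →
      ∀ w, ρ₂.ρ σ w - z • w ∈ Submodule.span A {e.toLinearEquiv (b 0)} := by
    intro σ z hz w
    have := hmem (hz (e.toLinearEquiv.symm w))
    rwa [map_sub, map_smul, e.map_apply, LinearEquiv.apply_symm_apply] at this
  refine ⟨Submodule.span A {e.toLinearEquiv (b 0)}, ⟨b.map e.toLinearEquiv, ?_⟩, ?_, ?_⟩
  · rw [Module.Basis.map_apply]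
  · intro σ hσ v hv
    obtain ⟨a, rfl⟩ := Submodule.mem_span_singleton.mp hv
    rw [map_smul, ← e.map_apply]
    exact Submodule.smul_mem _ _ (hmem (hD σ hσ _ (Submodule.mem_span_singleton_self _)))
  · intro σ hσ w
    have := hsub σ 1 (fun v => by rw [one_smul]; exact hI σ hσ v) w
    rwa [one_smul] at this

end BC

end Fermat.Agent.S59.H870
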