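import Fermat.Agent.S59.H870.OrdBridge
import Fermat.Agent.S59.H659.Conditions
import Fermat.Agent.S59.H247.TangentFinite
import Fermat.Agent.S59.H779.FlatDC
import Fermat.Agent.S59.Arch.SpecRT

/-!
# S59, cell COND (helper870): the conditions of type `Σ` are deformation conditions

* `isCoreCond_det_ordinary` : for an odd prime `p`, "cyclotomic determinant and ordinary at `p`"
  is a core condition in the sense of `Fermat.Agent.S59.H659` (ordinarity ALONE is not a
  deformation condition; with cyclotomic determinant the stable line is unique, because the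
  characters of inertia on the line and on the quotient are `ε` and `1`, distinct modulo `p`);
* `isDeformationCondition_ordinaryCondition`, `isDeformationCondition_minimalOrdinaryCondition`,
  `isDeformationCondition_ordinary_unipotent` : the Prelude conditions;
* `isDeformationCondition_sigmaCond_ord`, `isDeformationCondition_sigmaCond_sord`,
  `tangentFinite_sigmaCond` : the cases of `Arch.SigmaCondStatement` which do not need Raynaud;
* `sigmaCondStatement_of` : `Arch.SigmaCondStatement` from the closure properties of Hopf models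
  (`H779.HopfSubquotSpec`, `H779.HopfProdSpec`, only used for `t = .flat`).
-/

set_option autoImplicit false
set_option linter.unusedSectionVars false
set_option linter.style.haveILetI false

namespace Fermat.Agent.S59.H870

open Fermat.Agent.S53 Fermat.Agent.S59.H659 Fermat.Agent.S56.H966 IsLocalRing
open Fermat.Agent.S59.Arch

/-- **Cyclotomic determinant + ordinary at an odd prime `p` is a deformation condition.** -/
theorem isCoreCond_det_ordinary (p : ℕ) (hp : p.Prime) (hp2 : p ≠ 2) :
    IsCoreCond (fun _A _ _ ρ => ρ.DetIsCyclotomic p ∧ ρ.IsOrdinaryAt p) where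
  of_isEquiv := fun _ _ _ _ _ he h =>
    ⟨detIsCyclotomic_of_isEquiv he h.1, isOrdinaryAt_of_isEquiv he h.2⟩
  baseChangeAlong := fun _ _ _ _ _ _ φ hφ _ h =>
    ⟨detIsCyclotomic_baseChangeAlong φ hφ h.1, isOrdinaryAt_baseChangeAlong φ hφ h.2⟩
  of_fibre := by
    intro P A B _ _ _ _ _ _ _ _ _ pA pB hpA hpB hinj r hr hA hB
    have hdet := (isCoreCond_detIsCyclotomic p hp.ne_zero).of_fibre pA pB hpA hpB hinj r hr
      hA.1 hB.1
    refine ⟨hdet, ?_⟩
    have hA1 := (detIsCyclotomic_toAdic_iff _ _ p).mp hA.1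
    have hA2 := (isOrdinaryAt_toAdic_iff _ _ p).mp hA.2
    have hB2 := (isOrdinaryAt_toAdic_iff _ _ p).mp hB.2
    rw [isOrdinaryAt_toAdic_iff]
    intro 𝔓 h𝔓
    exact exists_isOStd_of_fibre hp hp2 h𝔓 pA pB hpA hinj hA1.1 r hA1.2 (hA2 𝔓 h𝔓) (hB2 𝔓 h𝔓)
  of_quotients := by
    intro A _ _ _ _ r hr h
    have hdet := (isCoreCond_detIsCyclotomic p hp.ne_zero).of_quotients r hr
      (fun n hn hloc hq => (h n hn hloc hq).1)
    refine ⟨hdet, ?_⟩
    rw [isOrdinaryAt_toAdic_iff]
    have hloc : ∀ n : ℕ, n ≠ 0 → IsLocalRing (A ⧸ maximalIdeal A ^ n) := fun n hn =>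
      isLocalRing_quotient _ (maximalIdeal_pow_ne_top n hn)
    have hq : ∀ n : ℕ, n ≠ 0 → IsLocalHom (Ideal.Quotient.mk (maximalIdeal A ^ n)) :=
      fun n hn =>
        haveI := hloc n hn
        IsLocalHom.of_surjective _ Ideal.Quotient.mk_surjective
    intro 𝔓 h𝔓
    have h1 := h 1 one_ne_zero (hloc 1 one_ne_zero) (hq 1 one_ne_zero)
    have h1det := (@detIsCyclotomic_toAdic_iff _ _ (hloc 1 one_ne_zero) _ _ p).mp h1.1
    refine exists_isOStd_of_quotients hp hp2 h𝔓 r (hloc 1 one_ne_zero) h1det.1 h1det.2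
      (fun n hn => ?_)
    have hn' := h n hn (hloc n hn) (hq n hn)
    exact (@isOrdinaryAt_toAdic_iff _ _ (hloc n hn) _ _ p).mp hn'.2 𝔓 h𝔓

/-- Core conditions only depend on the predicate up to equivalence. -/
theorem isCoreCond_of_iff {Q Q' : AdicPred} (hQ : IsCoreCond Q)
    (h : ∀ ⦃A : Type⦄ [CommRing A] [IsLocalRing A] (ρ : GaloisRepAdic A), Q ρ ↔ Q' ρ) :
    IsCoreCond Q' where
  of_isEquiv := fun _ _ _ _ _ he hρ => (h _).mp (hQ.of_isEquiv he ((h _).mpr hρ))
  baseChangeAlong := fun _ _ _ _ _ _ φ hφ _ hρ =>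
    (h _).mp (hQ.baseChangeAlong φ hφ ((h _).mpr hρ))
  of_fibre := fun _ _ _ _ _ _ _ _ _ _ _ _ pA pB hpA hpB hinj r hr hA hB =>
    (h _).mp (hQ.of_fibre pA pB hpA hpB hinj r hr ((h _).mpr hA) ((h _).mpr hB))
  of_quotients := fun _ _ _ _ _ r hr hρ =>
    (h _).mp (hQ.of_quotients r hr fun n hn hloc hq => (h _).mpr (hρ n hn hloc hq))

/-- The ordinary condition of the Prelude, as a core condition. -/
theorem isCoreCond_ordinaryCondition (p : ℕ) (hp : p.Prime) (hp2 : p ≠ 2) (S : Finset ℕ) :
    IsCoreCond (fun _A _ _ ρ => ρ.DetIsCyclotomic p ∧ ρ.IsOrdinaryAt p ∧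
      ∀ q : ℕ, q.Prime → q ∉ S → ρ.IsUnramifiedAt q) :=
  isCoreCond_of_iff ((isCoreCond_det_ordinary p hp hp2).and (isCoreCond_unramifiedOutside S))
    fun _ _ _ _ => and_assoc

section Main

variable (𝒪 : Type) [CommRing 𝒪] [IsLocalRing 𝒪] [Finite (ResidueField 𝒪)]
  (p : ℕ) (hp : p.Prime) (hp2 : p ≠ 2) (S Smin : Finset ℕ)

include hp hp2

/-- The ordinary condition of the Prelude is a deformation condition (`p` odd). -/
theorem isDeformationCondition_ordinaryCondition :
    GaloisRep.IsDeformationCondition 𝒪 (GaloisRep.ordinaryCondition 𝒪 p S) :=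
  (isCoreCond_ordinaryCondition p hp hp2 S).isDeformationCondition 𝒪

/-- Ordinary with respect to `S` and unipotent inertia at the primes of `Smin` different from
`p`. -/
theorem isDeformationCondition_ordinary_unipotent :
    GaloisRep.IsDeformationCondition 𝒪 (fun _A _ _ _ ρ =>
      GaloisRep.ordinaryCondition 𝒪 p S ρ ∧
        ∀ q ∈ Smin, q.Prime → q ≠ p → ρ.IsUnipotentOnInertiaAt q) :=
  ((isCoreCond_ordinaryCondition p hp hp2 S).and
    (isCoreCond_unipotentOn p Smin)).isDeformationCondition 𝒪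

/-- The minimal ordinary condition of the Prelude is a deformation condition (`p` odd). -/
theorem isDeformationCondition_minimalOrdinaryCondition :
    GaloisRep.IsDeformationCondition 𝒪 (GaloisRep.minimalOrdinaryCondition 𝒪 p S) :=
  isDeformationCondition_ordinary_unipotent 𝒪 p hp hp2 S S

/-- **COND, `t = .ord`.** -/
theorem isDeformationCondition_sigmaCond_ord :
    GaloisRep.IsDeformationCondition 𝒪 (sigmaCond 𝒪 p .ord Smin S) :=
  isDeformationCondition_ordinary_unipotent 𝒪 p hp hp2 S Smin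

/-- **COND, `t = .sord`** (helper659). -/
theorem isDeformationCondition_sigmaCond_sord :
    GaloisRep.IsDeformationCondition 𝒪 (sigmaCond 𝒪 p .sord Smin S) :=
  isDeformationCondition_strictOrdinary_unipotent 𝒪 p hp hp2 S Smin

omit hp2 in
/-- **COND, `t = .flat`**, given the closure properties of Hopf models (helper779,
helper659). -/
theorem isDeformationCondition_sigmaCond_flat
    (hSub : Fermat.Agent.S59.H779.HopfSubquotSpec p)
    (hProd : Fermat.Agent.S59.H779.HopfProdSpec p) :
    GaloisRep.IsDeformationCondition 𝒪 (sigmaCond 𝒪 p .flat Smin S) :=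
  isDeformationCondition_flat_unipotent 𝒪 p hp S Smin
    (Fermat.Agent.S59.H779.isDeformationCondition_isFlatAt 𝒪 hSub hProd)

end Main

section Tangent

variable (𝒪 : Type) [CommRing 𝒪] [IsLocalRing 𝒪] [Finite (ResidueField 𝒪)]

/-- **COND, tangent spaces**: every condition of type `Σ` has a finite tangent space. -/
theorem tangentFinite_sigmaCond (ρbar : ResidualGaloisRep (ResidueField 𝒪)) (p : ℕ)
    (t : PType) (Smin Sig : Finset ℕ) :
    GaloisRep.TangentFinite 𝒪 ρbar (sigmaCond 𝒪 p t Smin Sig) := by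
  refine Fermat.Agent.S59.H247.tangentFinite_of_unramified_outside 𝒪 ρbar _ Sig ?_
  intro inst ρ h
  cases t with
  | flat => exact h.1.2.2
  | sord => exact h.1.2.2
  | ord => exact h.1.2.2

end Tangent

/-- **Cell COND** from the closure properties of Hopf models (used for `t = .flat` only). -/
theorem sigmaCondStatement_of
    (hflat : ∀ p : ℕ, p.Prime → p ≠ 2 →
      Fermat.Agent.S59.H779.HopfSubquotSpec p ∧ Fermat.Agent.S59.H779.HopfProdSpec p) :
    SigmaCondStatement := by
  intro p _ hp2 𝒪 _ _ _ _ _ _ t Smin Sig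
  have hp : p.Prime := Fact.out
  refine ⟨?_, fun ρbar => tangentFinite_sigmaCond 𝒪 ρbar p t Smin Sig⟩
  cases t with
  | flat =>
    exact isDeformationCondition_sigmaCond_flat 𝒪 p hp Sig Smin (hflat p hp hp2).1
      (hflat p hp hp2).2
  | sord => exact isDeformationCondition_sigmaCond_sord 𝒪 p hp hp2 Sig Smin
  | ord => exact isDeformationCondition_sigmaCond_ord 𝒪 p hp hp2 Sig Smin

/-- **Cell COND, the cases without Raynaud**: `t ≠ .flat`. -/
theorem sigmaCond_of_ne_flat (p : ℕ) [Fact p.Prime] (hp2 : p ≠ 2)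
    (𝒪 : Type) [CommRing 𝒪] [IsDomain 𝒪] [IsDiscreteValuationRing 𝒪]
    [IsAdicComplete (maximalIdeal 𝒪) 𝒪] [Finite (ResidueField 𝒪)]
    (t : PType) (ht : t ≠ .flat) (Smin Sig : Finset ℕ) :
    GaloisRep.IsDeformationCondition 𝒪 (sigmaCond 𝒪 p t Smin Sig) ∧
      ∀ ρbar : ResidualGaloisRep (ResidueField 𝒪),
        GaloisRep.TangentFinite 𝒪 ρbar (sigmaCond 𝒪 p t Smin Sig) := by
  have hp : p.Prime := Fact.out
  refine ⟨?_, fun ρbar => tangentFinite_sigmaCond 𝒪 ρbar p t Smin Sig⟩
  cases t with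
  | flat => exact absurd rfl ht
  | sord => exact isDeformationCondition_sigmaCond_sord 𝒪 p hp hp2 Sig Smin
  | ord => exact isDeformationCondition_sigmaCond_ord 𝒪 p hp hp2 Sig Smin

end Fermat.Agent.S59.H870
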