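import Fermat.Agent.S59.H659.SOMat
import Fermat.Agent.S59.H659.DetCyc

/-!
# S59, cell COND, `.ord` case (helper870): the ordinary condition, matrix level

`IsOStd 𝔓 r` : the matrix representation `r` is in "ordinary standard form" at the place `𝔓`
over `p`: the decomposition group acts by upper triangular matrices `[[x, *], [0, z]]` and
`z = 1` on inertia.

For an odd prime `p` and representations with cyclotomic determinant the stable line is unique
(it is spanned by a column of `r σ₀ - 1`, `σ₀` an element of the inertia group on which the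
cyclotomic character is not `1` modulo `p`), so the property "conjugate to a representation in
standard form" descends along jointly injective pairs (`exists_isOStd_of_fibre`) and from the
quotients `A ⧸ 𝔪ⁿ` (`exists_isOStd_of_quotients`).

This is the pattern of `Fermat.Agent.S59.H659.SOMat` (helper659, strictly ordinary case); the
congruence `x ≡ ε z` of the strictly ordinary standard form is replaced by the determinant
condition.
-/

set_option autoImplicit false
set_option linter.unusedSectionVars false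
set_option linter.style.haveILetI false

namespace Fermat.Agent.S59.H870

open Fermat.Agent.S53 Fermat.Agent.S59.H659 IsLocalRing Polynomial

/-- Ordinary standard form at the place `𝔓`. -/
structure IsOStd (𝔓 : ValuationSubring (AlgebraicClosure ℚ)) {A : Type} [CommRing A]
    (r : GQ →* M2 A) : Prop where
  dec : ∀ σ ∈ 𝔓.decompositionSubgroup ℚ, r σ 1 0 = 0
  inert : ∀ σ ∈ 𝔓.inertiaSubgroupIn ℚ, r σ 1 1 = 1

section Descent

variable {𝔓 : ValuationSubring (AlgebraicClosure ℚ)}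

/-- Standard form descends along jointly injective pairs. -/
theorem IsOStd.of_fibre {P A B : Type} [CommRing P] [CommRing A] [CommRing B]
    (pA : P →+* A) (pB : P →+* B) (hinj : Function.Injective (fun x => (pA x, pB x)))
    {r : GQ →* M2 P}
    (hA : IsOStd 𝔓 (mapRep pA r)) (hB : IsOStd 𝔓 (mapRep pB r)) : IsOStd 𝔓 r where
  dec := by
    intro σ hσ
    have hA1 := hA.dec σ hσ
    have hB1 := hB.dec σ hσ
    rw [mapRep_apply_apply] at hA1 hB1
    exact eq_zero_of_fibre pA pB hinj hA1 hB1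
  inert := by
    intro σ hσ
    have hA1 := hA.inert σ hσ
    have hB1 := hB.inert σ hσ
    rw [mapRep_apply_apply] at hA1 hB1
    exact eq_of_fibre pA pB hinj (by rw [hA1, map_one]) (by rw [hB1, map_one])

/-- Standard form descends from the quotients `A ⧸ 𝔪ⁿ`. -/
theorem IsOStd.of_quotients {A : Type} [CommRing A] [IsLocalRing A] [IsNoetherianRing A]
    {r : GQ →* M2 A}
    (h : ∀ n : ℕ, n ≠ 0 → IsOStd 𝔓 (mapRep (Ideal.Quotient.mk (maximalIdeal A ^ n)) r)) :
    IsOStd 𝔓 r where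
  dec := by
    intro σ hσ
    refine eq_zero_of_quotients fun n hn => ?_
    have := (h n hn).dec σ hσ
    rwa [mapRep_apply_apply] at this
  inert := by
    intro σ hσ
    refine eq_of_quotients fun n hn => ?_
    have := (h n hn).inert σ hσ
    rw [mapRep_apply_apply] at this
    rw [this, map_one]

end Descent

section Triangular

variable {A : Type} [CommRing A] {𝔓 : ValuationSubring (AlgebraicClosure ℚ)}

/-- Standard form is preserved by conjugation with invertible upper triangular matrices. -/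
theorem IsOStd.conj_triangular {r : GQ →* M2 A} (h : IsOStd 𝔓 r) (T : (M2 A)ˣ)
    (hT : (T : M2 A) 1 0 = 0) : IsOStd 𝔓 (cj T⁻¹ r) := by
  have key : ∀ σ : GQ, r σ 1 0 = 0 → cj T⁻¹ r σ 1 0 = 0 ∧
      cj T⁻¹ r σ 0 0 = r σ 0 0 ∧ cj T⁻¹ r σ 1 1 = r σ 1 1 := by
    intro σ hσ
    refine Fermat.Agent.S59.H659.conj_triangular T hT (r σ) (cj T⁻¹ r σ) ?_ hσ
    rw [cj_apply, inv_inv, ← mul_assoc, ← mul_assoc, Units.mul_inv, one_mul]
  constructor
  · intro σ hσ
    exact (key σ (h.dec σ hσ)).1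
  · intro σ hσ
    obtain ⟨-, -, k3⟩ := key σ (h.dec σ (mem_decomposition_of_mem_inertia hσ))
    rw [k3]
    exact h.inert σ hσ

end Triangular

section Main

variable {𝔓 : ValuationSubring (AlgebraicClosure ℚ)} {p : ℕ}

/-- The trace of `r σ₀ - 1` is a unit when `r` has cyclotomic determinant and is conjugate to a
representation in standard form, and the cyclotomic character of `σ₀ ∈ I` is not `1` modulo
`p`. -/
theorem isUnit_trace_sub_one_of_det {A : Type} [CommRing A] [IsLocalRing A] (hp : p.Prime)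
    (hpA : (p : A) ∈ maximalIdeal A) {r : GQ →* M2 A} (P : (M2 A)ˣ)
    (h : IsOStd 𝔓 (cj P r)) {σ₀ : GQ} (hσ₀ : σ₀ ∈ 𝔓.inertiaSubgroupIn ℚ)
    (hσ₀' : ∀ a : ℕ, IsCycExp p σ₀ a → ¬ a ≡ 1 [MOD p])
    (hdet : CycCong p σ₀ (r σ₀).det 1) : IsUnit (r σ₀ - 1).trace := by
  obtain ⟨a, ha⟩ := exists_isCycExp p hp.ne_zero σ₀
  have h1 := hdet 1 a (by rwa [pow_one])
  have h10 := h.dec σ₀ (mem_decomposition_of_mem_inertia hσ₀)
  have h2 := h.inert σ₀ hσ₀
  have hdet' : (r σ₀).det = cj P r σ₀ 0 0 := by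
    have h3 : (cj P r σ₀).det = (r σ₀).det := by
      rw [cj_apply]
      exact Matrix.det_units_conj P (r σ₀)
    rw [← h3, Matrix.det_fin_two, h10, h2]
    ring
  have htr : (r σ₀ - 1).trace = cj P r σ₀ 0 0 - 1 := by
    have h3 : (cj P r σ₀).trace = (r σ₀).trace := by
      rw [cj_apply]
      exact Matrix.trace_units_conj P (r σ₀)
    rw [Matrix.trace_sub, ← h3, Matrix.trace_fin_two, Matrix.trace_fin_two, h2]
    simp only [Matrix.one_apply_eq]
    ring
  rw [htr]
  rw [hdet', mul_one, pow_one] at h1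
  have h4 : cj P r σ₀ 0 0 - (a : A) ∈ maximalIdeal A := by
    obtain ⟨c, hc⟩ := Ideal.mem_span_singleton'.mp h1
    rw [← hc]
    exact Ideal.mul_mem_left _ _ hpA
  have h5 : IsUnit ((a : A) - 1) := isUnit_natCast_sub_one hp hpA (hσ₀' a ha)
  have h6 : cj P r σ₀ 0 0 - 1 = ((a : A) - 1) + (cj P r σ₀ 0 0 - (a : A)) := by ring
  rw [h6]
  by_contra hcon
  have h7 : ((a : A) - 1) + (cj P r σ₀ 0 0 - (a : A)) ∈ maximalIdeal A := hcon
  have h8 : (a : A) - 1 ∈ maximalIdeal A := by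
    have := Ideal.sub_mem _ h7 h4
    rwa [add_sub_cancel_right] at this
  exact h8 h5

/-- **The stable line is canonical.** Let `Q` be an invertible matrix whose first column is a
column of `r σ₀ - 1`, `σ₀` in the inertia group. If the push-forward of `r` along `φ` is
conjugate to a representation in standard form, then the push-forward of `Q⁻¹ r Q` is in standard
form. -/
theorem isOStd_mapRep_conj {R A : Type} [CommRing R] [CommRing A] (φ : R →+* A)
    {r : GQ →* M2 R} {σ₀ : GQ} (hσ₀ : σ₀ ∈ 𝔓.inertiaSubgroupIn ℚ) (Q : (M2 R)ˣ) (j : Fin 2)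
    (hQ : ∀ i, (Q : M2 R) i 0 = (r σ₀ - 1) i j) (P : (M2 A)ˣ)
    (h : IsOStd 𝔓 (cj P (mapRep φ r))) :
    IsOStd 𝔓 (mapRep φ (cj Q⁻¹ r)) := by
  set Qφ : (M2 A)ˣ := Units.map φ.mapMatrix.toMonoidHom Q with hQφ
  set T : (M2 A)ˣ := P * Qφ with hT
  have h10 := h.dec σ₀ (mem_decomposition_of_mem_inertia hσ₀)
  have h11 := h.inert σ₀ hσ₀
  have hconj : (P : M2 A) * (mapRep φ r σ₀ - 1) = (cj P (mapRep φ r) σ₀ - 1) * P := by
    rw [mul_sub, sub_mul, mul_one, one_mul, cj_mul_eq]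
  have hrow : ∀ k, ((P : M2 A) * (mapRep φ r σ₀ - 1)) 1 k = 0 := by
    intro k
    rw [hconj, Matrix.mul_apply, Fin.sum_univ_two, Matrix.sub_apply, Matrix.sub_apply, h10, h11]
    simp
  have hT10 : (T : M2 A) 1 0 = 0 := by
    have h1 : ∀ i, (Qφ : M2 A) i 0 = (mapRep φ r σ₀ - 1) i j := by
      intro i
      show φ ((Q : M2 R) i 0) = _
      rw [hQ i, Matrix.sub_apply, Matrix.sub_apply, map_sub, mapRep_apply_apply]
      congr 1
      by_cases hij : i = j
      · subst hij; simp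
      · simp [hij]
    have h2 := hrow j
    rw [Matrix.mul_apply, Fin.sum_univ_two] at h2
    rw [hT, Units.val_mul, Matrix.mul_apply, Fin.sum_univ_two, h1 0, h1 1]
    exact h2
  have h3 := h.conj_triangular T hT10
  rw [cj_cj] at h3
  have h4 : T⁻¹ * P = Qφ⁻¹ := by
    rw [hT, mul_inv_rev, inv_mul_cancel_right]
  rw [h4] at h3
  rw [mapRep_cj, map_inv]
  exact h3

/-- **Ordinary descent along jointly injective pairs** (cyclotomic determinant). -/
theorem exists_isOStd_of_fibre (hp : p.Prime) (hp2 : p ≠ 2) (h𝔓 : 𝔓.LiesOverPrime p)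
    {P A B : Type} [CommRing P] [IsLocalRing P] [CommRing A] [IsLocalRing A] [CommRing B]
    [IsLocalRing B]
    (pA : P →+* A) (pB : P →+* B) (hpA : IsLocalHom pA)
    (hinj : Function.Injective (fun x => (pA x, pB x)))
    (hA : (p : A) ∈ maximalIdeal A) (r : GQ →* M2 P)
    (hdetA : ∀ σ : GQ, CycCong p σ (mapRep pA r σ).det 1)
    (h1 : ∃ U : (M2 A)ˣ, IsOStd 𝔓 (cj U (mapRep pA r)))
    (h2 : ∃ U : (M2 B)ˣ, IsOStd 𝔓 (cj U (mapRep pB r))) :
    ∃ U : (M2 P)ˣ, IsOStd 𝔓 (cj U r) := by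
  obtain ⟨σ₀, hσ₀, hσ₀'⟩ := exists_inertia_cycExp_ne_one p hp hp2 𝔓 h𝔓
  obtain ⟨UA, hUA⟩ := h1
  obtain ⟨UB, hUB⟩ := h2
  have htr : IsUnit (r σ₀ - 1).trace := by
    have h3 := isUnit_trace_sub_one_of_det hp hA UA hUA hσ₀ hσ₀' (hdetA σ₀)
    have h4 : (mapRep pA r σ₀ - 1).trace = pA (r σ₀ - 1).trace := by
      rw [Matrix.trace_fin_two, Matrix.trace_fin_two]
      simp
    rw [h4] at h3
    exact isUnit_of_map_unit pA _ h3
  obtain ⟨Q, j, hQ⟩ := exists_unit_col (r σ₀ - 1) htr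
  exact ⟨Q⁻¹, IsOStd.of_fibre pA pB hinj (isOStd_mapRep_conj pA hσ₀ Q j hQ UA hUA)
    (isOStd_mapRep_conj pB hσ₀ Q j hQ UB hUB)⟩

/-- **Ordinary descent from the quotients `A ⧸ 𝔪ⁿ`** (cyclotomic determinant). -/
theorem exists_isOStd_of_quotients (hp : p.Prime) (hp2 : p ≠ 2) (h𝔓 : 𝔓.LiesOverPrime p)
    {A : Type} [CommRing A] [IsLocalRing A] [IsNoetherianRing A] (r : GQ →* M2 A)
    (hloc : IsLocalRing (A ⧸ maximalIdeal A ^ 1))
    (hA : (p : A ⧸ maximalIdeal A ^ 1) ∈ maximalIdeal (A ⧸ maximalIdeal A ^ 1))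
    (hdet : ∀ σ : GQ,
      CycCong p σ (mapRep (Ideal.Quotient.mk (maximalIdeal A ^ 1)) r σ).det 1)
    (h : ∀ n : ℕ, n ≠ 0 → ∃ U : (M2 (A ⧸ maximalIdeal A ^ n))ˣ,
      IsOStd 𝔓 (cj U (mapRep (Ideal.Quotient.mk (maximalIdeal A ^ n)) r))) :
    ∃ U : (M2 A)ˣ, IsOStd 𝔓 (cj U r) := by
  obtain ⟨σ₀, hσ₀, hσ₀'⟩ := exists_inertia_cycExp_ne_one p hp hp2 𝔓 h𝔓
  have htr : IsUnit (r σ₀ - 1).trace := by
    obtain ⟨U1, hU1⟩ := h 1 one_ne_zero
    have h3 := isUnit_trace_sub_one_of_det hp hA U1 hU1 hσ₀ hσ₀' (hdet σ₀)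
    have h4 : (mapRep (Ideal.Quotient.mk (maximalIdeal A ^ 1)) r σ₀ - 1).trace =
        Ideal.Quotient.mk (maximalIdeal A ^ 1) (r σ₀ - 1).trace := by
      rw [Matrix.trace_fin_two, Matrix.trace_fin_two]
      simp
    rw [h4] at h3
    haveI : IsLocalHom (Ideal.Quotient.mk (maximalIdeal A ^ 1)) :=
      IsLocalHom.of_surjective _ Ideal.Quotient.mk_surjective
    exact isUnit_of_map_unit (Ideal.Quotient.mk (maximalIdeal A ^ 1)) _ h3
  obtain ⟨Q, j, hQ⟩ := exists_unit_col (r σ₀ - 1) htr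
  refine ⟨Q⁻¹, IsOStd.of_quotients fun n hn => ?_⟩
  obtain ⟨Un, hUn⟩ := h n hn
  exact isOStd_mapRep_conj _ hσ₀ Q j hQ Un hUn

end Main

end Fermat.Agent.S59.H870
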